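/-
Fermat/Agent/MAZ/InfPlace89/Main.lean  (helper89)

Programme MAZ (S15), leaf for F-E4' (requested by helper71): **a function field with principal
divisors over an infinite field of constants has infinitely many places.**

* `exists_pos_of_degree_eq_zero` : a divisor of degree `0` with a negative coefficient at a place of
  positive degree has a positive coefficient somewhere;
* `exists_zero`   : if `x` has a pole at `v₀` (`0 < deg v₀`), every `x - a`, `a : K`, has a zero;
* `infinite_place` : hence `Place K F` is infinite when `K` is.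

(`Place.deg` is a `finrank`, so it may vanish for a place with infinite residue extension: the
hypothesis `0 < v₀.deg` cannot be dropped.  It holds as soon as the residue field of `v₀` is finite
over `K`, e.g. `deg = 1` over an algebraically closed `K`.)
-/
import Mathlib
import Fermat.Prelude.Def_AlgebraicCurve_DivisorClassGroup
import Fermat.Agent.X0.FFPlace

set_option autoImplicit false

open AlgebraicCurve

namespace Fermat.Agent.MAZ.InfPlace89

open Fermat.Agent.X0.FF

variable {K F : Type*} [Field K] [Field F] [Algebra K F]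

/-- a pole of `x` is a pole of every `x - a`. -/
theorem ord_sub_const_neg (v : Place K F) {x : F} (hx : v.ord x < 0) (a : K) :
    v.ord (x - algebraMap K F a) < 0 := by
  by_contra h
  have h1 : x - algebraMap K F a ∈ v.toValuationSubring := ffp_mem_of_ord_nonneg v (not_lt.mp h)
  have h2 : x ∈ v.toValuationSubring := by
    have := add_mem h1 (v.algebraMap_mem' a)
    rwa [sub_add_cancel] at this
  have := ffp_ord_nonneg_of_mem v h2
  omega

theorem degree_eq_sum (D : Divisor K F) :
    Divisor.degree D = ∑ v ∈ D.support, D v * (v.deg : ℤ) := by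
  rw [Divisor.degree, Finsupp.liftAddHom_apply, Finsupp.sum]
  rfl

/-- a divisor of degree `0` with a negative coefficient at a place of positive degree has a positive
coefficient somewhere. -/
theorem exists_pos_of_degree_eq_zero (D : Divisor K F) (hD : Divisor.degree D = 0)
    (v₀ : Place K F) (hdeg : 0 < v₀.deg) (h₀ : D v₀ < 0) : ∃ v : Place K F, 0 < D v := by
  by_contra hne
  have hle : ∀ v : Place K F, D v ≤ 0 := fun v => not_lt.mp fun h => hne ⟨v, h⟩
  have hmem : v₀ ∈ D.support := Finsupp.mem_support_iff.mpr (ne_of_lt h₀)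
  have h1 : -(D v₀ * (v₀.deg : ℤ)) ≤ ∑ v ∈ D.support, -(D v * (v.deg : ℤ)) :=
    Finset.single_le_sum (f := fun v => -(D v * (v.deg : ℤ))) (fun v _ => by
      have h2 := hle v
      have hd : (0 : ℤ) ≤ (v.deg : ℤ) := Int.natCast_nonneg _
      nlinarith) hmem
  rw [Finset.sum_neg_distrib, ← degree_eq_sum, hD, neg_zero] at h1
  have h3 : D v₀ * (v₀.deg : ℤ) < 0 := mul_neg_of_neg_of_pos h₀ (by exact_mod_cast hdeg)
  linarith

variable [HasPrincipalDivisors K F]

/-- **every `x - a` has a zero**, if `x` has a pole (at a place of positive degree). -/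
theorem exists_zero (x : F) (v₀ : Place K F) (hdeg : 0 < v₀.deg) (hx : v₀.ord x < 0) (a : K) :
    ∃ v : Place K F, 0 < v.ord (x - algebraMap K F a) := by
  have hneg := ord_sub_const_neg v₀ hx a
  have hne : x - algebraMap K F a ≠ 0 := by
    intro h
    rw [h, Place.ord_zero] at hneg
    exact lt_irrefl _ hneg
  obtain ⟨D, hDv, hD0⟩ := HasPrincipalDivisors.exists_divisor (K := K) (x - algebraMap K F a) hne
  obtain ⟨v, hv⟩ := exists_pos_of_degree_eq_zero D hD0 v₀ hdeg (by rw [hDv]; exact hneg)
  exact ⟨v, by rw [← hDv]; exact hv⟩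

omit [HasPrincipalDivisors K F] in
/-- a place is a zero of `x - a` for at most one constant `a`. -/
theorem eq_of_ord_sub_pos (v : Place K F) (x : F) {a a' : K}
    (h1 : 0 < v.ord (x - algebraMap K F a)) (h2 : 0 < v.ord (x - algebraMap K F a')) : a = a' := by
  by_contra hne
  have m1 : x - algebraMap K F a ∈ v.toValuationSubring := ffp_mem_of_ord_nonneg v h1.le
  have m2 : x - algebraMap K F a' ∈ v.toValuationSubring := ffp_mem_of_ord_nonneg v h2.le
  have n1 : (⟨_, m1⟩ : v.toValuationSubring) ≠ 0 := by
    intro h
    have h0 : x - algebraMap K F a = 0 := congrArg Subtype.val h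
    rw [h0, Place.ord_zero] at h1
    exact lt_irrefl _ h1
  have n2 : (⟨_, m2⟩ : v.toValuationSubring) ≠ 0 := by
    intro h
    have h0 : x - algebraMap K F a' = 0 := congrArg Subtype.val h
    rw [h0, Place.ord_zero] at h2
    exact lt_irrefl _ h2
  have i1 := (ffp_mem_maximalIdeal_iff v ⟨_, m1⟩ n1).mpr h1
  have i2 := (ffp_mem_maximalIdeal_iff v ⟨_, m2⟩ n2).mpr h2
  have i3 := Ideal.sub_mem _ i2 i1
  have hc : (⟨_, m2⟩ - ⟨_, m1⟩ : v.toValuationSubring) =
      algebraMap K v.toValuationSubring (a - a') := by
    apply Subtype.ext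
    rw [v.coe_algebraMap, map_sub]
    show (x - algebraMap K F a') - (x - algebraMap K F a) = _
    ring
  rw [hc] at i3
  have hu : IsUnit (algebraMap K v.toValuationSubring (a - a')) :=
    (IsUnit.mk0 (a - a') (sub_ne_zero.mpr hne)).map _
  exact (IsLocalRing.mem_maximalIdeal _).mp i3 hu

/-- **`Place K F` is infinite** for an infinite field of constants. -/
theorem infinite_place [Infinite K] (x : F) (v₀ : Place K F) (hdeg : 0 < v₀.deg)
    (hx : v₀.ord x < 0) : Infinite (Place K F) := by
  choose f hf using exists_zero x v₀ hdeg hx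
  refine Infinite.of_injective f fun a a' h => ?_
  have h2 := hf a'
  rw [← h] at h2
  exact eq_of_ord_sub_pos (f a) x (hf a) h2

end Fermat.Agent.MAZ.InfPlace89
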